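import Mathlib
import Fermat.Prelude.Def_ModularCurve_IgusaScheme

/-!
# S28 / SCH (helper18): the scheme glue

`S28` reduces to three statements of commutative algebra about the chart rings:

`IsDomain (chartAlgFin N ℓ ⊗[ℤℓ] K)`, `IsDomain (chartAlgInf N ℓ ⊗[ℤℓ] K)`,
`Nontrivial (chartAlgMid N ℓ ⊗[ℤℓ] K)`.

* `irreducibleSpace_of_openCover` (topology): a space covered by irreducible open subsets that
  pairwise meet is irreducible.
* `isIntegral_of_openCover` : a scheme with an open cover by integral schemes whose images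
  pairwise meet is integral.
* `isIntegral_pullback_of_charts` : the glue for the Igusa scheme.
-/

set_option autoImplicit false
set_option linter.style.haveILetI false

open AlgebraicGeometry CategoryTheory CategoryTheory.Limits ModularCurve ModularCurve.IgusaScheme
open TensorProduct

noncomputable section

namespace Fermat.Agent.S28.Sch.H18

/-! ### Topology -/

/-- A topological space covered by a nonempty family of irreducible open subsets that pairwise
meet is irreducible. -/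
theorem irreducibleSpace_of_openCover {X : Type*} [TopologicalSpace X] {ι : Type*} [Nonempty ι]
    (U : ι → Set X) (hopen : ∀ i, IsOpen (U i)) (hirr : ∀ i, IsIrreducible (U i))
    (hcov : ∀ x, ∃ i, x ∈ U i) (hmeet : ∀ i j, (U i ∩ U j).Nonempty) : IrreducibleSpace X := by
  haveI : PreirreducibleSpace X := by
    refine PreirreducibleSpace.of_forall_nonempty_inter ?_
    rintro A B hA hB ⟨a, ha⟩ ⟨b, hb⟩
    obtain ⟨i, hi⟩ := hcov a
    obtain ⟨j, hj⟩ := hcov b
    -- inside `U i`: `A` and `U j` meet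
    obtain ⟨c, hcUi, hcA, hcUj⟩ : (U i ∩ (A ∩ U j)).Nonempty := by
      have := (hirr i).2 A (U j) hA (hopen j) ⟨a, hi, ha⟩
        (by obtain ⟨z, hz⟩ := hmeet i j; exact ⟨z, hz.1, hz.2⟩)
      exact this
    -- inside `U j`: `A ∩ U i` and `B` meet
    obtain ⟨d, hdUj, ⟨hdA, -⟩, hdB⟩ : (U j ∩ ((A ∩ U i) ∩ B)).Nonempty :=
      (hirr j).2 (A ∩ U i) B (hA.inter (hopen i)) hB ⟨c, hcUj, hcA, hcUi⟩ ⟨b, hj, hb⟩
    exact ⟨d, hdA, hdB⟩
  obtain ⟨i⟩ := ‹Nonempty ι›
  obtain ⟨x, -⟩ := (hirr i).1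
  exact ⟨⟨x⟩⟩

/-! ### Schemes -/

/-- A scheme with an open cover by integral schemes whose images pairwise meet is integral. -/
theorem isIntegral_of_openCover {Y : Scheme.{0}} (𝒱 : Y.OpenCover) [Nonempty 𝒱.I₀]
    (hint : ∀ i, IsIntegral (𝒱.X i))
    (hmeet : ∀ i j, (Set.range (𝒱.f i) ∩ Set.range (𝒱.f j)).Nonempty) : IsIntegral Y := by
  haveI : ∀ i, IsReduced (𝒱.X i) := fun i => by
    haveI := hint i
    infer_instance
  haveI : IsReduced Y := IsReduced.of_openCover Y 𝒱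
  haveI : IrreducibleSpace Y := by
    refine irreducibleSpace_of_openCover (fun i => Set.range (𝒱.f i)) (fun i => ?_) (fun i => ?_)
      (fun y => ?_) hmeet
    · exact (𝒱.f i).isOpenEmbedding.isOpen_range
    · haveI := hint i
      have h := (IrreducibleSpace.isIrreducible_univ (𝒱.X i)).image (𝒱.f i)
        (𝒱.f i).continuous.continuousOn
      rwa [Set.image_univ] at h
    · obtain ⟨i, x, hx⟩ := 𝒱.exists_eq y
      exact ⟨i, x, hx⟩
  exact isIntegral_of_irreducibleSpace_of_isReduced Y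

/-! ### The Igusa scheme -/

section Igusa

variable (N : ℕ) [NeZero N] (ℓ : ℕ) [Fact ℓ.Prime]

/-- The chart schemes indexed by `Bool` (`true ↦ XFin`, `false ↦ XInf`). -/
def chartObj : Bool → Scheme.{0}
  | true => XFin N ℓ
  | false => XInf N ℓ

/-- The chart maps indexed by `Bool`. -/
def chartMap : (b : Bool) → chartObj N ℓ b ⟶ ModularCurve.IgusaScheme N ℓ
  | true => ιFin N ℓ
  | false => ιInf N ℓ

instance chartMap_isOpenImmersion (b : Bool) : IsOpenImmersion (chartMap N ℓ b) := by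
  cases b
  · exact isOpenImmersion_ιInf N ℓ
  · exact isOpenImmersion_ιFin N ℓ

/-- The two-chart open cover of the Igusa scheme. -/
abbrev igusaOpenCover : (ModularCurve.IgusaScheme N ℓ).OpenCover :=
  Scheme.Cover.mkOfCovers Bool (chartObj N ℓ) (chartMap N ℓ) (fun x => by
    rcases mem_range_ιFin_or_mem_range_ιInf N ℓ x with ⟨y, hy⟩ | ⟨y, hy⟩
    · exact ⟨true, y, hy⟩
    · exact ⟨false, y, hy⟩) (fun b => chartMap_isOpenImmersion N ℓ b)

variable (K : Type) [Field K] [Algebra ↥(GaloisRep.ratLocalizedAt ℓ) K]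

/-- The base point `Spec K ⟶ Spec ℤ_(ℓ)`. -/
abbrev specK : Spec (CommRingCat.of K) ⟶ Spec (CommRingCat.of ↥(GaloisRep.ratLocalizedAt ℓ)) :=
  Spec.map (CommRingCat.ofHom (algebraMap ↥(GaloisRep.ratLocalizedAt ℓ) K))

/-- The induced open cover of the fibre. -/
abbrev fibreCover : (pullback (igusaTo N ℓ) (specK ℓ K)).OpenCover :=
  Scheme.Pullback.openCoverOfLeft (igusaOpenCover N ℓ) (igusaTo N ℓ) (specK ℓ K)

theorem fibreCover_f (b : Bool) :
    (fibreCover N ℓ K).f b =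
      pullback.map (chartMap N ℓ b ≫ igusaTo N ℓ) (specK ℓ K) (igusaTo N ℓ) (specK ℓ K)
        (chartMap N ℓ b) (𝟙 _) (𝟙 _) (by simp) (by simp) := rfl

/-- The range of a chart of the fibre. -/
theorem range_fibreCover_f (b : Bool) :
    Set.range ((fibreCover N ℓ K).f b) =
      (pullback.fst (igusaTo N ℓ) (specK ℓ K)) ⁻¹' Set.range (chartMap N ℓ b) := by
  refine (Scheme.Pullback.range_map (chartMap N ℓ b ≫ igusaTo N ℓ) (specK ℓ K) (igusaTo N ℓ)
    (specK ℓ K) (chartMap N ℓ b) (𝟙 _) (𝟙 _) (by simp) (by simp)).trans ?_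
  simp

/-- The finite chart of the fibre is `Spec (B_fin ⊗ K)`. -/
def fibreFinIso :
    (fibreCover N ℓ K).X true ≅
      Spec (CommRingCat.of (chartAlgFin N ℓ ⊗[↥(GaloisRep.ratLocalizedAt ℓ)] K)) :=
  pullback.congrHom (ιFin_igusaTo N ℓ) rfl ≪≫
    pullbackSpecIso ↥(GaloisRep.ratLocalizedAt ℓ) (chartAlgFin N ℓ) K

/-- The infinite chart of the fibre is `Spec (B_inf ⊗ K)`. -/
def fibreInfIso :
    (fibreCover N ℓ K).X false ≅
      Spec (CommRingCat.of (chartAlgInf N ℓ ⊗[↥(GaloisRep.ratLocalizedAt ℓ)] K)) :=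
  pullback.congrHom (ιInf_igusaTo N ℓ) rfl ≪≫
    pullbackSpecIso ↥(GaloisRep.ratLocalizedAt ℓ) (chartAlgInf N ℓ) K

/-- The middle chart maps to the base compatibly with both charts. -/
theorem mid_toBase :
    (fFin N ℓ ≫ ιFin N ℓ) ≫ igusaTo N ℓ =
      Spec.map (CommRingCat.ofHom
        (algebraMap ↥(GaloisRep.ratLocalizedAt ℓ) (chartAlgMid N ℓ))) := by
  rw [Category.assoc, ιFin_igusaTo, ← Spec.map_comp, ← CommRingCat.ofHom_comp]
  rfl

/-- A point of the fibre lying in both charts, from a point of `Spec (B_mid ⊗ K)`. -/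
theorem exists_mem_both (hMid : Nontrivial (chartAlgMid N ℓ ⊗[↥(GaloisRep.ratLocalizedAt ℓ)] K)) :
    ∃ y : ↥(pullback (igusaTo N ℓ) (specK ℓ K)),
      (pullback.fst (igusaTo N ℓ) (specK ℓ K)) y ∈ Set.range (ιFin N ℓ) ∧
      (pullback.fst (igusaTo N ℓ) (specK ℓ K)) y ∈ Set.range (ιInf N ℓ) := by
  -- a point of `Spec (B_mid ⊗ K)`
  have hne : Nonempty ↥(Spec (CommRingCat.of
      (chartAlgMid N ℓ ⊗[↥(GaloisRep.ratLocalizedAt ℓ)] K))) :=
    inferInstanceAs (Nonempty (PrimeSpectrum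
      (chartAlgMid N ℓ ⊗[↥(GaloisRep.ratLocalizedAt ℓ)] K)))
  -- transport to the pullback of the middle chart
  obtain ⟨w⟩ : Nonempty ↥(pullback (Spec.map (CommRingCat.ofHom
        (algebraMap ↥(GaloisRep.ratLocalizedAt ℓ) (chartAlgMid N ℓ)))) (specK ℓ K)) :=
    hne.map (pullbackSpecIso ↥(GaloisRep.ratLocalizedAt ℓ) (chartAlgMid N ℓ) K).inv
  -- map to the fibre
  let g : pullback (Spec.map (CommRingCat.ofHom
        (algebraMap ↥(GaloisRep.ratLocalizedAt ℓ) (chartAlgMid N ℓ)))) (specK ℓ K) ⟶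
      pullback (igusaTo N ℓ) (specK ℓ K) :=
    pullback.map _ _ _ _ (fFin N ℓ ≫ ιFin N ℓ) (𝟙 _) (𝟙 _)
      (by rw [Category.comp_id]; exact (mid_toBase N ℓ).symm) (by simp)
  have hfst : g ≫ pullback.fst (igusaTo N ℓ) (specK ℓ K) =
      pullback.fst _ _ ≫ (fFin N ℓ ≫ ιFin N ℓ) := pullback.lift_fst _ _ _
  have hfst' : g ≫ pullback.fst (igusaTo N ℓ) (specK ℓ K) =
      pullback.fst _ _ ≫ (fInf N ℓ ≫ ιInf N ℓ) := by
    rw [hfst, glue_condition]
  refine ⟨g w, ?_, ?_⟩
  · refine ⟨(fFin N ℓ) ((pullback.fst (Spec.map (CommRingCat.ofHom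
          (algebraMap ↥(GaloisRep.ratLocalizedAt ℓ) (chartAlgMid N ℓ)))) (specK ℓ K)) w), ?_⟩
    rw [← Scheme.Hom.comp_apply g, hfst]
    rfl
  · refine ⟨(fInf N ℓ) ((pullback.fst (Spec.map (CommRingCat.ofHom
          (algebraMap ↥(GaloisRep.ratLocalizedAt ℓ) (chartAlgMid N ℓ)))) (specK ℓ K)) w), ?_⟩
    rw [← Scheme.Hom.comp_apply g, hfst']
    rfl

/-- **The scheme glue for S28.** -/
theorem isIntegral_pullback_of_charts
    (hFin : IsDomain (chartAlgFin N ℓ ⊗[↥(GaloisRep.ratLocalizedAt ℓ)] K))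
    (hInf : IsDomain (chartAlgInf N ℓ ⊗[↥(GaloisRep.ratLocalizedAt ℓ)] K))
    (hMid : Nontrivial (chartAlgMid N ℓ ⊗[↥(GaloisRep.ratLocalizedAt ℓ)] K)) :
    IsIntegral ↑(pullback (igusaTo N ℓ)
      (Spec.map (CommRingCat.ofHom (algebraMap ↥(GaloisRep.ratLocalizedAt ℓ) K)))) := by
  haveI hIFin : IsIntegral ((fibreCover N ℓ K).X true) :=
    IsIntegral.of_isIso (fibreFinIso N ℓ K).inv
  haveI hIInf : IsIntegral ((fibreCover N ℓ K).X false) :=
    IsIntegral.of_isIso (fibreInfIso N ℓ K).inv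
  have hint : ∀ b : Bool, IsIntegral ((fibreCover N ℓ K).X b) := by
    intro b
    cases b
    · exact hIInf
    · exact hIFin
  obtain ⟨y, hy1, hy2⟩ := exists_mem_both N ℓ K hMid
  have hrange : ∀ b : Bool, y ∈ Set.range ((fibreCover N ℓ K).f b) := by
    intro b
    rw [range_fibreCover_f]
    cases b
    · exact hy2
    · exact hy1
  haveI : Nonempty (fibreCover N ℓ K).I₀ := ⟨true⟩
  exact isIntegral_of_openCover (fibreCover N ℓ K) hint (fun i j => ⟨y, hrange i, hrange j⟩)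

end Igusa

end Fermat.Agent.S28.Sch.H18
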