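import Mathlib
import Fermat.Agent.S28.Asm.Defs
import Fermat.Agent.S28.Sch.H18_Glue

/-!
# S28 / SCH (helper18): the deliverable `StSCH` of the assembly interface
-/

set_option autoImplicit false
open AlgebraicGeometry CategoryTheory CategoryTheory.Limits ModularCurve ModularCurve.IgusaScheme
open scoped TensorProduct

noncomputable section

namespace Fermat.Agent.S28.Sch.H18

/-- **Deliverable of SCH**, verbatim the proposition `Asm.StSCH`. -/
theorem stSCH : Fermat.Agent.S28.Asm.StSCH :=
  fun N _ ℓ _ K _ _ _ hFin hInf hMid => isIntegral_pullback_of_charts N ℓ K hFin hInf hMid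

end Fermat.Agent.S28.Sch.H18
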