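import Fermat.Agent.S28.Sch.H25_Defs

/-!
# S28, package SCH: the topological lemma [SCH-T] and the generic chart lemma [SCH-C]
-/

set_option autoImplicit false
open AlgebraicGeometry CategoryTheory CategoryTheory.Limits
open TensorProduct

noncomputable section

namespace Fermat.Agent.S28.Sch

/-- **[SCH-T]** A space covered by two irreducible open subsets with nonempty intersection is
irreducible. -/
theorem irreducibleSpace_of_two_opens {X : Type*} [TopologicalSpace X] {U V : Set X}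
    (hU : IsOpen U) (hV : IsOpen V) (hUV : U ∪ V = Set.univ)
    (hUi : IsIrreducible U) (hVi : IsIrreducible V) (hne : (U ∩ V).Nonempty) :
    IrreducibleSpace X := by
  have key : ∀ W : Set X, IsOpen W → W.Nonempty → (U ∩ (W ∩ V)).Nonempty := by
    rintro W hW ⟨x, hx⟩
    have hx' : x ∈ U ∪ V := hUV ▸ Set.mem_univ x
    obtain ⟨y, hyU, hyV⟩ := hne
    rcases hx' with hxU | hxV
    · exact hUi.2 W V hW hV ⟨x, hxU, hx⟩ ⟨y, hyU, hyV⟩
    · obtain ⟨z, hzV, hzW, hzU⟩ := hVi.2 W U hW hU ⟨x, hxV, hx⟩ ⟨y, hyV, hyU⟩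
      exact ⟨z, hzU, hzW, hzV⟩
  obtain ⟨y, hyU, -⟩ := hne
  refine @IrreducibleSpace.mk X _ ⟨?_⟩ ⟨y⟩
  intro W₁ W₂ h₁ h₂ hn₁ hn₂
  have hn₁' : W₁.Nonempty := by
    obtain ⟨x, -, hx⟩ := hn₁
    exact ⟨x, hx⟩
  have hn₂' : W₂.Nonempty := by
    obtain ⟨x, -, hx⟩ := hn₂
    exact ⟨x, hx⟩
  obtain ⟨a, haU, haW, haV⟩ := key W₁ h₁ hn₁'
  obtain ⟨b, hbU, hbW, hbV⟩ := key W₂ h₂ hn₂'
  obtain ⟨z, -, hz₁, hz₂⟩ := hUi.2 W₁ W₂ h₁ h₂ ⟨a, haU, haW⟩ ⟨b, hbU, hbW⟩
  exact ⟨z, Set.mem_univ z, hz₁, hz₂⟩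

/-- The chart morphism of the fibre attached to an affine open chart `ι : Spec B ⟶ X` of a scheme
`X` over `Spec R`, after base change to `Spec T`. -/
def chartHom {X : Scheme.{0}} {R B T : Type} [CommRing R] [CommRing B] [CommRing T]
    [Algebra R B] [Algebra R T] (g : X ⟶ Spec (CommRingCat.of R))
    (ι : Spec (CommRingCat.of B) ⟶ X)
    (hι : ι ≫ g = Spec.map (CommRingCat.ofHom (algebraMap R B))) :
    Spec (CommRingCat.of (B ⊗[R] T)) ⟶
      pullback g (Spec.map (CommRingCat.ofHom (algebraMap R T))) :=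
  (pullbackSpecIso R B T).inv ≫ (pullback.congrHom hι rfl).inv ≫
    (pullbackRightPullbackFstIso g (Spec.map (CommRingCat.ofHom (algebraMap R T))) ι).inv ≫
      pullback.snd ι (pullback.fst g (Spec.map (CommRingCat.ofHom (algebraMap R T))))

instance chartHom_isOpenImmersion {X : Scheme.{0}} {R B T : Type} [CommRing R] [CommRing B]
    [CommRing T] [Algebra R B] [Algebra R T] (g : X ⟶ Spec (CommRingCat.of R))
    (ι : Spec (CommRingCat.of B) ⟶ X) [IsOpenImmersion ι]
    (hι : ι ≫ g = Spec.map (CommRingCat.ofHom (algebraMap R B))) :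
    IsOpenImmersion (chartHom (T := T) g ι hι) := by
  unfold chartHom
  infer_instance

theorem range_chartHom {X : Scheme.{0}} {R B T : Type} [CommRing R] [CommRing B]
    [CommRing T] [Algebra R B] [Algebra R T] (g : X ⟶ Spec (CommRingCat.of R))
    (ι : Spec (CommRingCat.of B) ⟶ X) [IsOpenImmersion ι]
    (hι : ι ≫ g = Spec.map (CommRingCat.ofHom (algebraMap R B))) :
    Set.range (chartHom (T := T) g ι hι).base =
      (pullback.fst g (Spec.map (CommRingCat.ofHom (algebraMap R T)))).base ⁻¹'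
        Set.range ι.base := by
  have h := IsOpenImmersion.range_pullbackSnd ι
    (pullback.fst g (Spec.map (CommRingCat.ofHom (algebraMap R T))))
  unfold chartHom
  rw [← Category.assoc, ← Category.assoc, Scheme.Hom.comp_base, TopCat.coe_comp, Set.range_comp,
    Set.range_eq_univ.mpr, Set.image_univ, h]
  · rfl
  · exact (TopCat.epi_iff_surjective _).mp inferInstance

/-- **[SCH-C]** -/
theorem exists_chart {X : Scheme.{0}} {R B T : Type} [CommRing R] [CommRing B] [CommRing T]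
    [Algebra R B] [Algebra R T] (g : X ⟶ Spec (CommRingCat.of R))
    (ι : Spec (CommRingCat.of B) ⟶ X) [IsOpenImmersion ι]
    (hι : ι ≫ g = Spec.map (CommRingCat.ofHom (algebraMap R B))) :
    ∃ j : Spec (CommRingCat.of (B ⊗[R] T)) ⟶
        pullback g (Spec.map (CommRingCat.ofHom (algebraMap R T))),
      IsOpenImmersion j ∧
      Set.range j.base =
        (pullback.fst g (Spec.map (CommRingCat.ofHom (algebraMap R T)))).base ⁻¹'
          Set.range ι.base :=
  ⟨chartHom g ι hι, inferInstance, range_chartHom g ι hι⟩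

end Fermat.Agent.S28.Sch
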