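import Mathlib
import Fermat.Prelude.Def_ModularCurve_IgusaScheme
import Fermat.Prelude.Def_ModularCurve_X0ModL

/-!
# S28, package SCH (scheme glue): notation

`S28 ⟸ IsDomain (B_fin ⊗ K), IsDomain (B_inf ⊗ K), Nontrivial (B_mid ⊗ K)` with the chart ring on
the LEFT of the tensor product (orientation of Mathlib's `pullbackSpecIso`).
-/

set_option autoImplicit false
open AlgebraicGeometry CategoryTheory CategoryTheory.Limits ModularCurve ModularCurve.IgusaScheme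
open TensorProduct

noncomputable section

namespace Fermat.Agent.S28.Sch

/-- `ℤ_(ℓ)`. -/
abbrev Zl (ℓ : ℕ) [Fact ℓ.Prime] : Type := ↥(GaloisRep.ratLocalizedAt ℓ)

/-- The base change morphism `Spec K ⟶ Spec ℤ_(ℓ)`. -/
abbrev baseK (ℓ : ℕ) [Fact ℓ.Prime] (K : Type) [Field K] [Algebra (Zl ℓ) K] :
    Spec (CommRingCat.of K) ⟶ Spec (CommRingCat.of (Zl ℓ)) :=
  Spec.map (CommRingCat.ofHom (algebraMap (Zl ℓ) K))

/-- The fibre of the Igusa scheme over `K`. -/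
abbrev fibre (N : ℕ) [NeZero N] (ℓ : ℕ) [Fact ℓ.Prime] (K : Type) [Field K] [Algebra (Zl ℓ) K] :
    Scheme.{0} :=
  pullback (igusaTo N ℓ) (baseK ℓ K)

/-- The three hypotheses consumed by SCH (delivered by package ALG/TENS). -/
def StFin (N : ℕ) [NeZero N] (ℓ : ℕ) [Fact ℓ.Prime] (K : Type) [Field K] [Algebra (Zl ℓ) K] :
    Prop := IsDomain (↥(chartAlgFin N ℓ) ⊗[Zl ℓ] K)

def StInf (N : ℕ) [NeZero N] (ℓ : ℕ) [Fact ℓ.Prime] (K : Type) [Field K] [Algebra (Zl ℓ) K] :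
    Prop := IsDomain (↥(chartAlgInf N ℓ) ⊗[Zl ℓ] K)

def StMid (N : ℕ) [NeZero N] (ℓ : ℕ) [Fact ℓ.Prime] (K : Type) [Field K] [Algebra (Zl ℓ) K] :
    Prop := Nontrivial (↥(chartAlgMid N ℓ) ⊗[Zl ℓ] K)

end Fermat.Agent.S28.Sch
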