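import Fermat.Agent.S28.Sch.H25_Chart

/-!
# S28, package SCH: the fibre of the Igusa scheme is integral, from the three chart statements

`sch_main`: if `B_fin ⊗ K` and `B_inf ⊗ K` are domains and `B_mid ⊗ K` is nontrivial, then the
fibre `pullback (igusaTo N ℓ) (Spec K ⟶ Spec ℤ_(ℓ))` is an integral scheme.
-/

set_option autoImplicit false
open AlgebraicGeometry CategoryTheory CategoryTheory.Limits ModularCurve ModularCurve.IgusaScheme
open TensorProduct

noncomputable section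

namespace Fermat.Agent.S28.Sch

variable (N : ℕ) [NeZero N] (ℓ : ℕ) [Fact ℓ.Prime]
variable (K : Type) [Field K] [Algebra (Zl ℓ) K]

/-- The projection of the fibre to the Igusa scheme. -/
abbrev proj : fibre N ℓ K ⟶ ModularCurve.IgusaScheme N ℓ := pullback.fst (igusaTo N ℓ) (baseK ℓ K)

/-- The finite chart of the fibre. -/
def jFin : Spec (CommRingCat.of (↥(chartAlgFin N ℓ) ⊗[Zl ℓ] K)) ⟶ fibre N ℓ K :=
  chartHom (igusaTo N ℓ) (ιFin N ℓ) (ιFin_igusaTo N ℓ)

/-- The chart at infinity of the fibre. -/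
def jInf : Spec (CommRingCat.of (↥(chartAlgInf N ℓ) ⊗[Zl ℓ] K)) ⟶ fibre N ℓ K :=
  chartHom (igusaTo N ℓ) (ιInf N ℓ) (ιInf_igusaTo N ℓ)

instance jFin_isOpenImmersion : IsOpenImmersion (jFin N ℓ K) := by
  unfold jFin; infer_instance

instance jInf_isOpenImmersion : IsOpenImmersion (jInf N ℓ K) := by
  unfold jInf; infer_instance

theorem range_jFin :
    Set.range (jFin N ℓ K).base = (proj N ℓ K).base ⁻¹' Set.range (ιFin N ℓ).base :=
  range_chartHom (igusaTo N ℓ) (ιFin N ℓ) (ιFin_igusaTo N ℓ)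

theorem range_jInf :
    Set.range (jInf N ℓ K).base = (proj N ℓ K).base ⁻¹' Set.range (ιInf N ℓ).base :=
  range_chartHom (igusaTo N ℓ) (ιInf N ℓ) (ιInf_igusaTo N ℓ)

theorem range_jFin_union_range_jInf :
    Set.range (jFin N ℓ K).base ∪ Set.range (jInf N ℓ K).base = Set.univ := by
  rw [range_jFin, range_jInf, ← Set.preimage_union]
  apply Set.eq_univ_of_forall
  intro x
  exact mem_range_ιFin_or_mem_range_ιInf N ℓ _

/-- The middle chart is a chart of the Igusa scheme over `ℤ_(ℓ)`. -/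
theorem mid_igusaTo : (fFin N ℓ ≫ ιFin N ℓ) ≫ igusaTo N ℓ =
    Spec.map (CommRingCat.ofHom (algebraMap (Zl ℓ) ↥(chartAlgMid N ℓ))) := by
  rw [Category.assoc, ιFin_igusaTo, ← Spec.map_comp, ← CommRingCat.ofHom_comp]
  rfl

/-- **[SCH-M]** The two charts of the fibre meet. -/
theorem exists_point_mid (hMid : Nontrivial (↥(chartAlgMid N ℓ) ⊗[Zl ℓ] K)) :
    ∃ x : fibre N ℓ K,
      (pullback.fst (igusaTo N ℓ) (baseK ℓ K)).base x ∈
        Set.range (ιFin N ℓ).base ∩ Set.range (ιInf N ℓ).base := by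
  haveI : IsOpenImmersion (fFin N ℓ ≫ ιFin N ℓ) := inferInstance
  obtain ⟨y⟩ : Nonempty (PrimeSpectrum (↥(chartAlgMid N ℓ) ⊗[Zl ℓ] K)) := inferInstance
  let j := chartHom (T := K) (igusaTo N ℓ) (fFin N ℓ ≫ ιFin N ℓ) (mid_igusaTo N ℓ)
  have hj : j.base y ∈ Set.range j.base := ⟨y, rfl⟩
  rw [range_chartHom] at hj
  obtain ⟨z, hz⟩ := hj
  refine ⟨j.base y, ⟨(fFin N ℓ).base z, ?_⟩, ⟨(fInf N ℓ).base z, ?_⟩⟩
  · rw [← hz]; rfl
  · rw [← hz]
    change ((fInf N ℓ ≫ ιInf N ℓ).base) z = ((fFin N ℓ ≫ ιFin N ℓ).base) z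
    rw [glue_condition]

/-- The open cover of the fibre by the two charts. -/
def fibreCover : (fibre N ℓ K).OpenCover :=
  Scheme.Cover.mkOfCovers Bool
    (fun b => if b then Spec (CommRingCat.of (↥(chartAlgFin N ℓ) ⊗[Zl ℓ] K))
      else Spec (CommRingCat.of (↥(chartAlgInf N ℓ) ⊗[Zl ℓ] K)))
    (fun b => match b with
      | true => jFin N ℓ K
      | false => jInf N ℓ K)
    (by
      intro x
      have hx : x ∈ Set.range (jFin N ℓ K).base ∪ Set.range (jInf N ℓ K).base := by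
        rw [range_jFin_union_range_jInf]; exact Set.mem_univ x
      rcases hx with ⟨y, hy⟩ | ⟨y, hy⟩
      · exact ⟨true, y, hy⟩
      · exact ⟨false, y, hy⟩)
    (by
      intro b
      cases b
      · exact jInf_isOpenImmersion N ℓ K
      · exact jFin_isOpenImmersion N ℓ K)

/-- **[SCH-R]** The fibre is reduced. -/
theorem isReduced_fibre (hFin : IsDomain (↥(chartAlgFin N ℓ) ⊗[Zl ℓ] K))
    (hInf : IsDomain (↥(chartAlgInf N ℓ) ⊗[Zl ℓ] K)) : IsReduced (fibre N ℓ K) := by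
  haveI : ∀ i, IsReduced ((fibreCover N ℓ K).X i) := by
    intro b
    cases b
    · change IsReduced (Spec (CommRingCat.of (↥(chartAlgInf N ℓ) ⊗[Zl ℓ] K)))
      infer_instance
    · change IsReduced (Spec (CommRingCat.of (↥(chartAlgFin N ℓ) ⊗[Zl ℓ] K)))
      infer_instance
  exact IsReduced.of_openCover _ (fibreCover N ℓ K)

/-- **[SCH-I]** The fibre is irreducible. -/
theorem irreducibleSpace_fibre (hFin : IsDomain (↥(chartAlgFin N ℓ) ⊗[Zl ℓ] K))
    (hInf : IsDomain (↥(chartAlgInf N ℓ) ⊗[Zl ℓ] K))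
    (hMid : Nontrivial (↥(chartAlgMid N ℓ) ⊗[Zl ℓ] K)) : IrreducibleSpace (fibre N ℓ K) := by
  have hUo : IsOpen (Set.range (jFin N ℓ K).base) := (jFin N ℓ K).isOpenEmbedding.isOpen_range
  have hVo : IsOpen (Set.range (jInf N ℓ K).base) := (jInf N ℓ K).isOpenEmbedding.isOpen_range
  have hUi : IsIrreducible (Set.range (jFin N ℓ K).base) := by
    haveI : IrreducibleSpace (PrimeSpectrum (↥(chartAlgFin N ℓ) ⊗[Zl ℓ] K)) := inferInstance
    rw [← Set.image_univ]
    exact (IrreducibleSpace.isIrreducible_univ _).image _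
      (jFin N ℓ K).continuous.continuousOn
  have hVi : IsIrreducible (Set.range (jInf N ℓ K).base) := by
    haveI : IrreducibleSpace (PrimeSpectrum (↥(chartAlgInf N ℓ) ⊗[Zl ℓ] K)) := inferInstance
    rw [← Set.image_univ]
    exact (IrreducibleSpace.isIrreducible_univ _).image _
      (jInf N ℓ K).continuous.continuousOn
  refine irreducibleSpace_of_two_opens hUo hVo (range_jFin_union_range_jInf N ℓ K) hUi hVi ?_
  obtain ⟨x, hx₁, hx₂⟩ := exists_point_mid N ℓ K hMid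
  refine ⟨x, ?_, ?_⟩
  · rw [range_jFin]; exact hx₁
  · rw [range_jInf]; exact hx₂

/-- **[SCH-F]** The deliverable of package SCH. -/
theorem sch_main
    (hFin : IsDomain (↥(chartAlgFin N ℓ) ⊗[↥(GaloisRep.ratLocalizedAt ℓ)] K))
    (hInf : IsDomain (↥(chartAlgInf N ℓ) ⊗[↥(GaloisRep.ratLocalizedAt ℓ)] K))
    (hMid : Nontrivial (↥(chartAlgMid N ℓ) ⊗[↥(GaloisRep.ratLocalizedAt ℓ)] K)) :
    IsIntegral ↑(pullback (igusaTo N ℓ)
      (Spec.map (CommRingCat.ofHom (algebraMap ↥(GaloisRep.ratLocalizedAt ℓ) K)))) := by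
  have h1 := isReduced_fibre N ℓ K hFin hInf
  have h2 := irreducibleSpace_fibre N ℓ K hFin hInf hMid
  exact isIntegral_of_irreducibleSpace_of_isReduced (fibre N ℓ K)

end Fermat.Agent.S28.Sch
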