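import Mathlib
import Fermat.Prelude.Def_ModularCurve_IgusaScheme

/-!
# S28, package SCH (helper28): scheme glue

`IsIntegral` of the fibre of the Igusa scheme over a field `K` from the three chart statements
`IsDomain (B_fin ⊗ K)`, `IsDomain (B_inf ⊗ K)`, `Nontrivial (B_mid ⊗ K)`.
-/

set_option autoImplicit false
open AlgebraicGeometry CategoryTheory CategoryTheory.Limits ModularCurve ModularCurve.IgusaScheme
open TensorProduct

noncomputable section

namespace Fermat.Agent.S28.Sch.H28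

/-- A space covered by two irreducible open subsets with nonempty intersection is irreducible. -/
theorem h28_irreducibleSpace_of_two_opens {X : Type*} [TopologicalSpace X] (U V : Set X)
    (hU : IsOpen U) (hV : IsOpen V) (hUi : IsIrreducible U) (hVi : IsIrreducible V)
    (hcov : U ∪ V = Set.univ) (hne : (U ∩ V).Nonempty) : IrreducibleSpace X := by
  have key : ∀ W : Set X, IsOpen W → W.Nonempty → (U ∩ (W ∩ V)).Nonempty := by
    intro W hW ⟨x, hx⟩
    have hxUV : x ∈ U ∪ V := hcov ▸ Set.mem_univ x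
    rcases hxUV with hxU | hxV
    · exact hUi.2 W V hW hV ⟨x, hxU, hx⟩ hne
    · have h1 : (V ∩ (W ∩ U)).Nonempty :=
        hVi.2 W U hW hU ⟨x, hxV, hx⟩ (by rwa [Set.inter_comm] at hne)
      obtain ⟨y, hyV, hyW, hyU⟩ := h1
      exact ⟨y, hyU, hyW, hyV⟩
  have hpre : IsPreirreducible (Set.univ : Set X) := by
    intro W₁ W₂ hW₁ hW₂ h1 h2
    rw [Set.univ_inter] at h1 h2 ⊢
    have k1 := key W₁ hW₁ h1
    have k2 := key W₂ hW₂ h2
    obtain ⟨y, _, ⟨hy1, _⟩, hy2, _⟩ :=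
      hUi.2 (W₁ ∩ V) (W₂ ∩ V) (hW₁.inter hV) (hW₂.inter hV) k1 k2
    exact ⟨y, hy1, hy2⟩
  have hP : PreirreducibleSpace X := ⟨hpre⟩
  exact ⟨⟨hne.some⟩⟩

/-- A scheme covered by two integral open subschemes whose images meet is integral. -/
theorem h28_isIntegral_of_two_charts {P Y₁ Y₂ : Scheme.{0}} (φ₁ : Y₁ ⟶ P) (φ₂ : Y₂ ⟶ P)
    [IsOpenImmersion φ₁] [IsOpenImmersion φ₂] [IsIntegral Y₁] [IsIntegral Y₂]
    (hcov : Set.range ⇑φ₁ ∪ Set.range ⇑φ₂ = Set.univ)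
    (hne : (Set.range ⇑φ₁ ∩ Set.range ⇑φ₂).Nonempty) : IsIntegral P := by
  have hirr : IrreducibleSpace P := by
    refine h28_irreducibleSpace_of_two_opens (Set.range ⇑φ₁) (Set.range ⇑φ₂)
      φ₁.isOpenEmbedding.isOpen_range φ₂.isOpenEmbedding.isOpen_range ?_ ?_ hcov hne
    · rw [← Set.image_univ]
      exact (IrreducibleSpace.isIrreducible_univ Y₁).image _ φ₁.continuous.continuousOn
    · rw [← Set.image_univ]
      exact (IrreducibleSpace.isIrreducible_univ Y₂).image _ φ₂.continuous.continuousOn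
  have hred : IsReduced P := by
    let 𝒲 : P.OpenCover := Scheme.Cover.mkOfCovers Bool (fun b => if b then Y₁ else Y₂)
      (fun b => match b with
        | true => φ₁
        | false => φ₂)
      (fun x => by
        have hx : x ∈ Set.range ⇑φ₁ ∪ Set.range ⇑φ₂ := hcov ▸ Set.mem_univ x
        rcases hx with ⟨y, hy⟩ | ⟨y, hy⟩
        · exact ⟨true, y, hy⟩
        · exact ⟨false, y, hy⟩)
      (fun b => by
        cases b
        · exact (inferInstance : IsOpenImmersion φ₂)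
        · exact (inferInstance : IsOpenImmersion φ₁))
    have h𝒲 : ∀ i, IsReduced (𝒲.X i) := by
      intro b
      cases b
      · exact (inferInstance : IsReduced Y₂)
      · exact (inferInstance : IsReduced Y₁)
    exact IsReduced.of_openCover P 𝒲
  exact isIntegral_of_irreducibleSpace_of_isReduced P

section Chart

variable {R B K : Type} [CommRing R] [CommRing B] [CommRing K] [Algebra R B] [Algebra R K]
  {X : Scheme.{0}} (f : X ⟶ Spec (CommRingCat.of R)) (φ : Spec (CommRingCat.of B) ⟶ X)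

/-- The chart of the fibre product over an affine chart `Spec B → X` is `Spec (B ⊗ K)`. -/
def h28_chartIso (hφ : φ ≫ f = Spec.map (CommRingCat.ofHom (algebraMap R B))) :
    pullback (φ ≫ f) (Spec.map (CommRingCat.ofHom (algebraMap R K))) ≅
      Spec (CommRingCat.of (B ⊗[R] K)) :=
  pullback.congrHom hφ rfl ≪≫ pullbackSpecIso R B K

theorem h28_chart_isIntegral (hφ : φ ≫ f = Spec.map (CommRingCat.ofHom (algebraMap R B)))
    [IsDomain (B ⊗[R] K)] :
    IsIntegral (pullback (φ ≫ f) (Spec.map (CommRingCat.ofHom (algebraMap R K)))) := by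
  have : IsDomain ↑(CommRingCat.of (B ⊗[R] K)) := ‹IsDomain (B ⊗[R] K)›
  have : IsIntegral (Spec (CommRingCat.of (B ⊗[R] K))) := inferInstance
  exact IsIntegral.of_isIso (h28_chartIso f φ hφ).inv

theorem h28_chart_nonempty (hφ : φ ≫ f = Spec.map (CommRingCat.ofHom (algebraMap R B)))
    [Nontrivial (B ⊗[R] K)] :
    Nonempty ↥(pullback (φ ≫ f) (Spec.map (CommRingCat.ofHom (algebraMap R K)))) := by
  have : Nontrivial ↑(CommRingCat.of (B ⊗[R] K)) := ‹Nontrivial (B ⊗[R] K)›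
  have h : Nonempty ↥(Spec (CommRingCat.of (B ⊗[R] K))) :=
    (inferInstance : Nonempty (PrimeSpectrum (B ⊗[R] K)))
  exact h.map ⇑(h28_chartIso f φ hφ).inv

end Chart

section Igusa

variable (N : ℕ) [NeZero N] (ℓ : ℕ) [Fact ℓ.Prime]
  (K : Type) [Field K] [Algebra ↥(GaloisRep.ratLocalizedAt ℓ) K]

/-- The composite `XMid → XFin → Igusa → Spec ℤℓ` is the structure map of `B_mid`. -/
theorem h28_mid_toBase :
    (fFin N ℓ ≫ ιFin N ℓ) ≫ igusaTo N ℓ =
      Spec.map (CommRingCat.ofHom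
        (algebraMap ↥(GaloisRep.ratLocalizedAt ℓ) ↥(chartAlgMid N ℓ))) := by
  rw [Category.assoc, ιFin_igusaTo, ← Spec.map_comp, ← CommRingCat.ofHom_comp]
  rfl

/-- **SCH glue**: the fibre of the Igusa scheme over `K` is integral as soon as the two chart
algebras `B_fin ⊗ K`, `B_inf ⊗ K` are domains and `B_mid ⊗ K` is nontrivial. -/
theorem isIntegral_pullback_of_charts
    (hFin : IsDomain (↥(chartAlgFin N ℓ) ⊗[↥(GaloisRep.ratLocalizedAt ℓ)] K))
    (hInf : IsDomain (↥(chartAlgInf N ℓ) ⊗[↥(GaloisRep.ratLocalizedAt ℓ)] K))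
    (hMid : Nontrivial (↥(chartAlgMid N ℓ) ⊗[↥(GaloisRep.ratLocalizedAt ℓ)] K)) :
    IsIntegral ↑(pullback (igusaTo N ℓ)
      (Spec.map (CommRingCat.ofHom (algebraMap ↥(GaloisRep.ratLocalizedAt ℓ) K)))) := by
  set f := igusaTo N ℓ with hf
  set g := Spec.map (CommRingCat.ofHom (algebraMap ↥(GaloisRep.ratLocalizedAt ℓ) K)) with hg
  -- the three chart maps into the fibre
  let φ₁ : pullback (ιFin N ℓ ≫ f) g ⟶ pullback f g :=
    pullback.map (ιFin N ℓ ≫ f) g f g (ιFin N ℓ) (𝟙 _) (𝟙 _) (by simp) (by simp)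
  let φ₂ : pullback (ιInf N ℓ ≫ f) g ⟶ pullback f g :=
    pullback.map (ιInf N ℓ ≫ f) g f g (ιInf N ℓ) (𝟙 _) (𝟙 _) (by simp) (by simp)
  let φ₀ : pullback ((fFin N ℓ ≫ ιFin N ℓ) ≫ f) g ⟶ pullback f g :=
    pullback.map ((fFin N ℓ ≫ ιFin N ℓ) ≫ f) g f g (fFin N ℓ ≫ ιFin N ℓ) (𝟙 _) (𝟙 _)
      (by simp) (by simp)
  have hr₁ : Set.range ⇑φ₁ = ⇑(pullback.fst f g) ⁻¹' Set.range ⇑(ιFin N ℓ) := by
    have := Scheme.Pullback.range_map (ιFin N ℓ ≫ f) g f g (ιFin N ℓ) (𝟙 _) (𝟙 _)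
      (by simp) (by simp)
    rw [this]
    simp
  have hr₂ : Set.range ⇑φ₂ = ⇑(pullback.fst f g) ⁻¹' Set.range ⇑(ιInf N ℓ) := by
    have := Scheme.Pullback.range_map (ιInf N ℓ ≫ f) g f g (ιInf N ℓ) (𝟙 _) (𝟙 _)
      (by simp) (by simp)
    rw [this]
    simp
  have hr₀ : Set.range ⇑φ₀ = ⇑(pullback.fst f g) ⁻¹' Set.range ⇑(fFin N ℓ ≫ ιFin N ℓ) := by
    have := Scheme.Pullback.range_map ((fFin N ℓ ≫ ιFin N ℓ) ≫ f) g f g
      (fFin N ℓ ≫ ιFin N ℓ) (𝟙 _) (𝟙 _) (by simp) (by simp)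
    rw [this]
    simp
  -- integrality of the two charts
  have : IsDomain (↥(chartAlgFin N ℓ) ⊗[↥(GaloisRep.ratLocalizedAt ℓ)] K) := hFin
  have : IsDomain (↥(chartAlgInf N ℓ) ⊗[↥(GaloisRep.ratLocalizedAt ℓ)] K) := hInf
  have : Nontrivial (↥(chartAlgMid N ℓ) ⊗[↥(GaloisRep.ratLocalizedAt ℓ)] K) := hMid
  have i₁ : IsIntegral (pullback (ιFin N ℓ ≫ f) g) :=
    h28_chart_isIntegral (K := K) f (ιFin N ℓ) (ιFin_igusaTo N ℓ)
  have i₂ : IsIntegral (pullback (ιInf N ℓ ≫ f) g) :=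
    h28_chart_isIntegral (K := K) f (ιInf N ℓ) (ιInf_igusaTo N ℓ)
  have i₀ : Nonempty ↥(pullback ((fFin N ℓ ≫ ιFin N ℓ) ≫ f) g) :=
    h28_chart_nonempty (K := K) (B := ↥(chartAlgMid N ℓ)) f (fFin N ℓ ≫ ιFin N ℓ)
      (h28_mid_toBase N ℓ)
  refine h28_isIntegral_of_two_charts φ₁ φ₂ ?_ ?_
  · -- the two charts cover
    rw [hr₁, hr₂, ← Set.preimage_union]
    apply Set.eq_univ_of_forall
    intro x
    exact mem_range_ιFin_or_mem_range_ιInf N ℓ (pullback.fst f g x)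
  · -- the two charts meet
    obtain ⟨z⟩ := i₀
    refine ⟨φ₀ z, ?_, ?_⟩
    · have hz : φ₀ z ∈ Set.range ⇑φ₀ := ⟨z, rfl⟩
      rw [hr₀] at hz
      rw [hr₁]
      obtain ⟨w, hw⟩ := hz
      exact ⟨fFin N ℓ w, by rw [← hw]; rfl⟩
    · have hz : φ₀ z ∈ Set.range ⇑φ₀ := ⟨z, rfl⟩
      rw [hr₀] at hz
      rw [hr₂]
      obtain ⟨w, hw⟩ := hz
      refine ⟨fInf N ℓ w, ?_⟩
      rw [← hw, glue_condition N ℓ]
      rfl

end Igusa

end Fermat.Agent.S28.Sch.H28
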